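/-
Programme MW (S17), block DESC (helper4): **the descent lemma**.

`A` an abelian group, `q : A → ℝ`.
* `QuasiPar q`  : `∃ C, ∀ x y, |q (x + y) + q (x - y) - 2 q x - 2 q y| ≤ C` (quasi-parallelogram law);
* `Northcott q` : `∀ B, {x | q x ≤ B}` is finite;
* `QuasiCube h` : `∃ C, ∀ x y z, |h(x+y+z) - h(x+y) - h(x+z) - h(y+z) + h x + h y + h z| ≤ C`.

Main results:
* `fg_of_quasiPar`  : `QuasiPar q → Northcott q → (finite set of representatives of A/2A) → AddGroup.FG A`;
* `fg_of_quasiPar'` : the same with `Finite (A ⧸ range (2 • ·))`;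
* `quasiPar_even_of_quasiCube` : `QuasiCube h → QuasiPar (fun x => h x + h (-x))`;
* `fg_of_quasiCube` : `QuasiCube h → Northcott h → … → AddGroup.FG A` (no symmetry of `h` needed).
-/
import Mathlib

set_option autoImplicit false
set_option linter.unusedSectionVars false

namespace Fermat.Agent.MW.DESC.Descent4

variable {A : Type*} [AddCommGroup A]

/-- The quasi-parallelogram law. -/
def QuasiPar (q : A → ℝ) : Prop :=
  ∃ C : ℝ, ∀ x y : A, |q (x + y) + q (x - y) - 2 * q x - 2 * q y| ≤ C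

/-- The Northcott property. -/
def Northcott (q : A → ℝ) : Prop := ∀ B : ℝ, {x : A | q x ≤ B}.Finite

/-- The quasi-cube law. -/
def QuasiCube (h : A → ℝ) : Prop :=
  ∃ C : ℝ, ∀ x y z : A,
    |h (x + y + z) - h (x + y) - h (x + z) - h (y + z) + h x + h y + h z| ≤ C

/-- A function with the Northcott property is bounded below. -/
theorem Northcott.exists_lower_bound {q : A → ℝ} (hN : Northcott q) : ∃ c : ℝ, ∀ x, -c ≤ q x := by
  have hfin := hN 0
  by_cases hne : {x : A | q x ≤ 0}.Nonempty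
  · obtain ⟨x₀, -, hx₀⟩ := Set.exists_min_image _ q hfin hne
    refine ⟨-q x₀, fun x => ?_⟩
    rw [neg_neg]
    by_cases hx : q x ≤ 0
    · exact hx₀ x hx
    · have h0 : q x₀ ≤ 0 := by
        obtain ⟨y, hy⟩ := hne
        exact (hx₀ y hy).trans hy
      linarith [not_le.mp hx]
  · refine ⟨0, fun x => ?_⟩
    rw [neg_zero]
    by_contra hx
    exact hne ⟨x, (not_le.mp hx).le⟩

/-- **Descent lemma.**  A quasi-quadratic function with the Northcott property on an abelian group
`A` with `A/2A` finite forces `A` to be finitely generated. -/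
theorem fg_of_quasiPar (q : A → ℝ) (hpar : QuasiPar q) (hN : Northcott q)
    (S : Finset A) (hS : ∀ x : A, ∃ s ∈ S, ∃ y : A, x = 2 • y + s) : AddGroup.FG A := by
  classical
  obtain ⟨C, hC⟩ := hpar
  obtain ⟨c, hc⟩ := hN.exists_lower_bound
  -- a bound for `q` on the representatives
  obtain ⟨m, hm⟩ : ∃ m : ℝ, ∀ s ∈ S, q s ≤ m := by
    by_cases hSne : S.Nonempty
    · exact ⟨S.sup' hSne q, fun s hs => Finset.le_sup' q hs⟩
    · exact ⟨0, fun s hs => absurd ⟨s, hs⟩ hSne⟩
  set C₃ : ℝ := (2 * m + 2 * C + c + q 0) / 4 with hC₃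
  -- the key inequality
  have key : ∀ x y : A, ∀ s ∈ S, x = 2 • y + s → q y ≤ q x / 2 + C₃ := by
    intro x y s hs hxy
    have h1 := hC y y
    rw [sub_self, ← two_nsmul] at h1
    have h2 := hC x s
    have h3 : x - s = 2 • y := by rw [hxy]; abel
    rw [h3] at h2
    have h4 := hc (x + s)
    have h5 := hm s hs
    have h1' := (abs_le.mp h1).1
    have h2' := (abs_le.mp h2).2
    rw [hC₃]
    linarith
  -- the generating set
  set T : Set A := (S : Set A) ∪ {x | q x ≤ 2 * C₃} with hT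
  have hTfin : T.Finite := (Finset.finite_toSet S).union (hN _)
  rw [AddGroup.fg_iff]
  refine ⟨T, ?_, hTfin⟩
  rw [eq_top_iff]
  intro x _
  by_contra hx
  -- choose a counterexample with minimal `q`
  set U : Set A := {z | z ∉ AddSubgroup.closure T ∧ q z ≤ q x} with hU
  have hUfin : U.Finite := (hN (q x)).subset fun z hz => hz.2
  have hUne : U.Nonempty := ⟨x, hx, le_rfl⟩
  obtain ⟨z₀, hz₀U, hz₀min⟩ := Set.exists_min_image U q hUfin hUne
  obtain ⟨s, hs, y, hy⟩ := hS z₀
  have hsT : s ∈ AddSubgroup.closure T :=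
    AddSubgroup.subset_closure (Or.inl (Finset.mem_coe.mpr hs))
  have hyT : y ∉ AddSubgroup.closure T := by
    intro hyT
    apply hz₀U.1
    rw [hy]
    exact (AddSubgroup.closure T).add_mem ((AddSubgroup.closure T).nsmul_mem hyT 2) hsT
  have hz₀big : 2 * C₃ < q z₀ := by
    by_contra hle
    exact hz₀U.1 (AddSubgroup.subset_closure (Or.inr (not_lt.mp hle)))
  have hylt : q y < q z₀ := by
    have := key z₀ y s hs hy
    linarith
  have hyU : y ∈ U := ⟨hyT, hylt.le.trans hz₀U.2⟩
  exact absurd (hz₀min y hyU) (not_le.mpr hylt)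

/-- The descent lemma with `A/2A` finite as a quotient. -/
theorem fg_of_quasiPar' (q : A → ℝ) (hpar : QuasiPar q) (hN : Northcott q)
    (hfin : Finite (A ⧸ (zsmulAddGroupHom (α := A) 2).range)) : AddGroup.FG A := by
  classical
  have : Fintype (A ⧸ (zsmulAddGroupHom (α := A) 2).range) := Fintype.ofFinite _
  set S : Finset A := Finset.univ.image
    (fun c : A ⧸ (zsmulAddGroupHom (α := A) 2).range => Quotient.out c) with hSdef
  refine fg_of_quasiPar q hpar hN S fun x => ?_
  refine ⟨Quotient.out (QuotientAddGroup.mk x : A ⧸ (zsmulAddGroupHom (α := A) 2).range),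
    Finset.mem_image_of_mem _ (Finset.mem_univ _), ?_⟩
  have h1 : (QuotientAddGroup.mk (Quotient.out (QuotientAddGroup.mk x :
      A ⧸ (zsmulAddGroupHom (α := A) 2).range)) : A ⧸ (zsmulAddGroupHom (α := A) 2).range) =
      QuotientAddGroup.mk x := Quotient.out_eq _
  rw [QuotientAddGroup.eq] at h1
  obtain ⟨y, hy⟩ := h1
  refine ⟨y, ?_⟩
  have hy' : (2 : ℤ) • y = -Quotient.out (QuotientAddGroup.mk x :
      A ⧸ (zsmulAddGroupHom (α := A) 2).range) + x := hy
  rw [← natCast_zsmul, Nat.cast_ofNat, hy']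
  abel

/-- From the quasi-cube law for `h` to the quasi-parallelogram law for the even part
`x ↦ h x + h (-x)`. -/
theorem quasiPar_even_of_quasiCube {h : A → ℝ} (hcube : QuasiCube h) :
    QuasiPar fun x => h x + h (-x) := by
  obtain ⟨C, hC⟩ := hcube
  refine ⟨2 * C + 2 * |h 0|, fun x y => ?_⟩
  have e1 := hC x y (-y)
  have e2 := hC (-x) y (-y)
  have s1 : x + y + -y = x := by abel
  have s2 : y + -y = 0 := by abel
  have s3 : -x + y + -y = -x := by abel
  have s7 : x + -y = x - y := by abel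
  have s8 : -x + y = -(x - y) := by abel
  have s9 : -x + -y = -(x + y) := by abel
  rw [s1, s2, s7] at e1
  rw [s3, s2, s8, s9] at e2
  have a1 := abs_le.mp e1
  have a2 := abs_le.mp e2
  have a0 := abs_le.mp (le_refl |h 0|)
  rw [abs_le]
  constructor <;> linarith [a1.1, a1.2, a2.1, a2.2, a0.1, a0.2]

/-- The Northcott property passes from `h` to its even part when `h` is bounded below. -/
theorem northcott_even {h : A → ℝ} (hN : Northcott h) : Northcott fun x => h x + h (-x) := by
  obtain ⟨c, hc⟩ := hN.exists_lower_bound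
  intro B
  refine (hN (B + c)).subset fun x hx => ?_
  have h1 : h x + h (-x) ≤ B := hx
  have h2 := hc (-x)
  show h x ≤ B + c
  linarith

/-- **Descent lemma, cube form**: no symmetry of `h` is needed. -/
theorem fg_of_quasiCube (h : A → ℝ) (hcube : QuasiCube h) (hN : Northcott h)
    (S : Finset A) (hS : ∀ x : A, ∃ s ∈ S, ∃ y : A, x = 2 • y + s) : AddGroup.FG A :=
  fg_of_quasiPar _ (quasiPar_even_of_quasiCube hcube) (northcott_even hN) S hS

/-- The descent lemma for a subgroup: `q` is only defined and controlled on the ambient group. -/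
theorem fg_addSubgroup_of_quasiPar {J : Type*} [AddCommGroup J] (G : AddSubgroup J) (q : J → ℝ)
    (hpar : QuasiPar q) (hN : ∀ B : ℝ, {x : J | x ∈ G ∧ q x ≤ B}.Finite)
    (S : Finset J) (hSG : ∀ s ∈ S, s ∈ G)
    (hS : ∀ x ∈ G, ∃ s ∈ S, ∃ y ∈ G, x = 2 • y + s) : AddGroup.FG G := by
  classical
  obtain ⟨C, hC⟩ := hpar
  refine fg_of_quasiPar (fun x : G => q x) ⟨C, fun x y => hC x y⟩ (fun B => ?_)
    (S.subtype (· ∈ G)) (fun x => ?_)
  · have hinj : Set.InjOn (fun x : G => (x : J)) {x : G | q x ≤ B} :=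
      fun a _ b _ hab => Subtype.ext hab
    refine Set.Finite.of_finite_image ((hN B).subset ?_) hinj
    rintro _ ⟨x, hx, rfl⟩
    exact ⟨x.2, hx⟩
  · obtain ⟨s, hs, y, hy, hxy⟩ := hS x x.2
    refine ⟨⟨s, hSG s hs⟩, ?_, ⟨y, hy⟩, Subtype.ext ?_⟩
    · rw [Finset.mem_subtype]; exact hs
    · simpa using hxy

end Fermat.Agent.MW.DESC.Descent4
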